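import Fermat.Statements.S17
import Fermat.Agent.MW.Final.HeightMain7
import Fermat.Agent.MW.Weak.Div2OfPackage21
import Fermat.Agent.JAC.Final27.ChainDone38

set_option autoImplicit false
open ModularCurve AlgebraicCurve
open ModularCurve ModularCurve.JZero

namespace Fermat.Agent.S17

theorem result (N : ℕ) [NeZero N] (hN : N.Prime) (hN5 : 5 ≤ N) :
    AddGroup.FG ↥(FixedPoints.addSubgroup ((AlgebraicClosure ℚ) ≃ₐ[ℚ] (AlgebraicClosure ℚ)) (JZero N)) :=
  Fermat.Agent.MW.Final.HeightMain7.s17_of_weakMW2 N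
    (Fermat.Agent.MW.Weak.Div2OfPackage21.weakMW2_of_packageStatement N
      Fermat.Agent.JAC.Final27.ChainDone38.packageStatement)

end Fermat.Agent.S17
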