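-- Statement S12 (row 11): `FreyPackage.frey_no_cofixed_large`.
-- Proof: S15 (`Fermat.Agent.S15.result`) + program MAZ-S12 (`MAZ/S12/Final27.s12_of_s15Stmt`).
import Fermat.Statements.S12
import Fermat.Agent.S15
import Fermat.Agent.MAZ.S12.Final27

set_option autoImplicit false
open WeierstrassCurve WeierstrassCurve.Affine WeierstrassCurve.Affine.Point
open CuspForm ModularFormClass UpperHalfPlane
open FreyPackage

namespace Fermat.Agent.S12

theorem result (P : FreyPackage) (hp : 17 ≤ P.p) : ¬ HasGaloisStableCofixedLine (K := AlgebraicClosure ℚ) ℚ P.freyCurve P.p := by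
  exact Fermat.Agent.MAZ.S12.Final27.s12_of_s15Stmt
    (fun hp hp' W hΔ Q hfix hord h2Δ h2c h2 h3Δ h3c h3 _ hℓ hℓp hℓΔ hℓc A hA =>
      Fermat.Agent.S15.result hp hp' W hΔ Q hfix hord h2Δ h2c h2 h3Δ h3c h3 hℓ hℓp hℓΔ hℓc A hA)
    P hp

end Fermat.Agent.S12
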