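-- Statement S25 (row 24): the relative Pic⁰ of a smooth proper integral curve with a section over an
-- algebraically closed field is represented by a smooth proper geometrically connected scheme.
-- Programme JAC.  Final wiring: `Final/S25Dry56.s25_of_algAtlas` (helper56; Abel data, scheme
-- dictionary, two-chart data) + `Hilb/AtlasDone24.nonempty_algAtlas` (helper24 and the chart team:
-- the algebra-side atlas) + `Final/CurveHyp36.curveHyp` (helper36: the curve hypotheses from B2).
import Fermat.Statements.S25
import Fermat.Agent.JAC.Final.S25Dry56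
import Fermat.Agent.JAC.Final.CurveHyp36
import Fermat.Agent.JAC.Hilb.AtlasDone24

set_option autoImplicit false
set_option autoImplicit false
universe u
open CategoryTheory CategoryTheory.Limits AlgebraicGeometry AlgebraicGeometry.RelPicard NeronModelInfra
  GoodReductionJacobian
open AlgebraicGeometry AlgebraicGeometry.RelPicard

namespace Fermat.Agent.S25

open Fermat.Agent.JAC.B2.TwoChart37 Fermat.Agent.JAC.B2.CurveBlock37 Fermat.Agent.JAC.B2.Export37
  Fermat.Agent.JAC.B2.Adapter37

attribute [local instance] algK₀ algK₁ algK₀₁ alg₀ alg₁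

theorem result
    (k : Type u) [Field k] [IsAlgClosed k] {C : Scheme.{u}} (c : C ⟶ Spec (CommRingCat.of k))
    [IsProper c] [SmoothOfRelativeDimension 1 c] [IsIntegral C]
    (ε : SchemeHomOver (𝟙 (Spec (CommRingCat.of k))) c) :
    ∃ D : RelativePic0Designation k c,
      Nonempty (RepresentsRelSubPic c ε (algEquivZeroCut c ε) D) ∧
        Smooth D.toBase ∧ IsProper D.toBase ∧ GeometricallyConnected D.toBase :=
  Fermat.Agent.JAC.Final.S25Dry56.s25_of_algAtlas k c ε fun P =>
    Fermat.Agent.JAC.Hilb.AtlasDone24.nonempty_algAtlas
      (Fermat.Agent.JAC.Final.CurveHyp36.curveHyp P.toTwoChartData) _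

end Fermat.Agent.S25
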