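-- Statement S26 (row 25). The statement below is byte-identical to the frozen statement
-- GoodReductionJacobian.RelativeGroupLaw.FermatFrozen.S26 (Fermat/Statements/S26.lean).
-- Proof: programme JAC, S26 track (architect helper66): `Final26/Final66.s26_of_s25` reduces S26 to S25.
import Fermat.Statements.S26
import Fermat.Agent.S25
import Fermat.Agent.JAC.Final26.Final66

set_option autoImplicit false
set_option autoImplicit false
open CategoryTheory CategoryTheory.Limits AlgebraicGeometry NeronModelInfra GoodReductionJacobian
universe u
open GoodReductionJacobian GoodReductionJacobian.RelativeGroupLaw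

namespace Fermat.Agent.S26

theorem result
    (K : Type u) [Field K] [IsAlgClosed K] {A : Scheme.{u}} (f : A ⟶ Spec (CommRingCat.of K))
    (L : RelativeGroupLaw K f) (hc : L.IsCommutative) (hA : AbelianSchemePropertyBundle K f)
    (g : ℕ) [SmoothOfRelativeDimension g f] (n : ℕ) (hn : (n : K) ≠ 0) :
    Nat.card {x : SchemeHomOver (𝟙 (Spec (CommRingCat.of K))) f //
        L.IsTorsionPoint (𝟙 (Spec (CommRingCat.of K))) n x} = n ^ (2 * g) :=
  Fermat.Agent.JAC.Final26.Final66.s26_of_s25 K
    (fun c _ _ _ ε => Fermat.Agent.S25.result K c ε) f L hc hA g n hn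

end Fermat.Agent.S26
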