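-- Statement S44 (row 38): level lowering at p for the Frey package
-- (FreyPackage.level_lowering_at_p_of_conductorLevel).
-- Proof: Glue/Iface44.s44_of_coreTors (the global wiring: Frey curve, conductor level, eigen-torsion,
-- non-Eisenstein prime, end game) applied to the M1 main theorem Tri/Main43.coreTors.
import Fermat.Statements.S44
import Fermat.Agent.M1.Glue.Iface44
import Fermat.Agent.M1.Tri.Main43

set_option autoImplicit false
open WeierstrassCurve WeierstrassCurve.Affine WeierstrassCurve.Affine.Point
open CuspForm ModularFormClass UpperHalfPlane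
open FreyPackage

namespace Fermat.Agent.S44

theorem result (P : FreyPackage) {N : ℕ} (hcond : P.IsConductorLevel N) (hpN : P.p ∣ N) (hirr : GaloisRepIsIrreducible (K := AlgebraicClosure ℚ) ℚ P.freyCurve P.p) (hmod : P.ModularRepOfLevel N) : ∃ M : ℕ, M ∣ N ∧ ¬ P.p ∣ M ∧ P.ModularRepOfLevel M :=
  Fermat.Agent.M1.Glue.Iface44.s44_of_coreTors Fermat.Agent.M1.Tri.Main43.coreTors P hcond hpN hirr hmod

end Fermat.Agent.S44
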