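-- Statement S52 (row 46): the 3-5 switch.
-- Proof: `Final84.s52_of_twist` (assembly of the whole S52 programme: Klein's icosahedral family of
-- `5`-congruent curves, specialisation theorem, Hilbert irreducibility for the `3`-division
-- polynomial, semistability of the members, Eichler-Shimura relation on torsion) applied to the twist
-- identities `TwistSpec51.twistSpec`.
import Fermat.Statements.S52
import Fermat.Agent.S52.Asm.Final84
import Fermat.Agent.S52.Asm.TwistSpec51

set_option autoImplicit false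
open WeierstrassCurve WeierstrassCurve.Affine WeierstrassCurve.Affine.Point
open CuspForm ModularFormClass UpperHalfPlane
open WeierstrassCurve

namespace Fermat.Agent.S52

theorem result (W : WeierstrassCurve ℤ) (hΔ : W.Δ ≠ 0) (hW : W.IsSemistableModel) (h5 : W.ModRepIsIrreducible 5) : ∃ W' : WeierstrassCurve ℤ, W'.Δ ≠ 0 ∧ W'.IsSemistableModel ∧ W'.ModRepIsIrreducible 3 ∧ ∀ ℓ : ℕ, ℓ.Prime → W.IsGoodPrimeFor ℓ → W'.IsGoodPrimeFor ℓ → ℓ ≠ 5 → (5 : ℤ) ∣ (W'.apOfModel ℓ - W.apOfModel ℓ) :=
  Fermat.Agent.S52.Asm.Final84.s52_of_twist Fermat.Agent.S52.Asm.TwistSpec51.twistSpec W hΔ hW h5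

end Fermat.Agent.S52
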