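-- Statement S58 (row 52): `WeierstrassCurve.isModularModelOfLevel_conductorLevel_of_not_cube_dvd_of_modRepIsIrreducible_of_not_sq_dvd`.
-- Programme Q (`Fermat/Agent/ES/Q58/`): `LocalOfEC12.s58_of_ecFacts` (newform descent, S35 and the internal
-- form of S36, two-sided Chebotarev) reduces the statement to the elliptic-curve package `ECIface12.ECFacts W`:
-- * `inertia` : `InertiaFinal98.ecFacts_inertia_of_semistable` (good primes: reduction is injective on torsion;
--   multiplicative primes: lift of the torsion of the nodal fibre, `NodeCount15` + `InertiaMult88`);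
-- * `trace` : `TraceCong20.trace_of_rel` from the Eichler-Shimura relation on the torsion of the generic fibre,
--   `RelQbarFinal88.relQbar` = `Red39.relQbar_of_relChar` (reduction) + `FrobRel53.frob_relation_of_manin` (the
--   relation in characteristic `r` by the parallelogram law on the function field) + Manin's lemma
--   `ManinUp88.deg_sub_frob`.
-- The hypotheses `hp2`, `hirr`, `hp2N` are not needed.
import Fermat.Statements.S58
import Fermat.Agent.ES.Q58.LocalOfEC12
import Fermat.Agent.ES.Q58.InertiaFinal98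
import Fermat.Agent.ES.Q58.RelQbarFinal88
import Fermat.Agent.ES.Q58.TraceCong20

set_option autoImplicit false
set_option autoImplicit false
open WeierstrassCurve

namespace Fermat.Agent.S58

open Fermat.Agent.ES.Q58

theorem result
    (W : WeierstrassCurve ℤ) (hss : W.IsSemistableModel) (N : ℕ)
    (p : ℕ) [Fact p.Prime] (hp2 : p ≠ 2) (hirr : W.ModRepIsIrreducible p)
    (hp2N : ¬ p ^ 2 ∣ N)
    (hN : W.IsModularModelOfLevel N) (hbad : ∀ ℓ : ℕ, ℓ.Prime → (ℓ : ℤ) ∣ W.Δ → ℓ ∣ N)
    (hN3 : ∀ q : ℕ, q.Prime → ¬ q ^ 3 ∣ N) :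
    W.IsModularModelOfLevel W.conductorLevel := by
  have hΔ : W.Δ ≠ 0 := TopA12.disc_ne_zero (TopA12.level_ne_zero hN3) hbad
  exact LocalOfEC12.s58_of_ecFacts W N hN hbad hN3
    ⟨InertiaFinal98.ecFacts_inertia_of_semistable W hΔ hss,
      TraceCong20.trace_of_rel W (RelQbarFinal88.relQbar W)⟩

end Fermat.Agent.S58
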